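import Fermat.Agent.Lib.HauptmodulZ.Prelude

/-!
# Hauptmodul library: integral power series identities

`h2Z = y₂ / x₂ = Δ(q²)/Δ(q) = q + ⋯` and `h3Z = X₃ / Y₃ = (η(q³)/η(q))¹² = q + ⋯` in `ℤ⟦X⟧`.
With `a = jNum` (so `j = a / q`) and `b = V_r a` (so `j(q^r) = b / q^r`):

* `a h₂ = q (1 + 256 h₂)³`, `b h₂² = q² (1 + 16 h₂)³`;
* `a h₃ = q (1 + 27 h₃)(1 + 243 h₃)³`, `b h₃³ = q³ (1 + 27 h₃)(1 + 3 h₃)³`;
* a linear relation `A h + q B = 0` with `A, B ∈ ℤ[q, a, b]`, `A` a unit of `ℤ⟦X⟧`.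
-/

set_option autoImplicit false

noncomputable section

namespace Fermat.Agent.Lib.HauptmodulZ

open Fermat.Agent.S16 PowerSeries ModularCurve

theorem constantCoeff_sigZ (j : ℕ) : constantCoeff (sigZ j) = 0 := by
  rw [← coeff_zero_eq_constantCoeff_apply, sigZ, coeff_mk]
  simp

theorem constantCoeff_psV {R : Type*} [CommRing R] (r : ℕ) (A : PowerSeries R) :
    constantCoeff (psV r A) = constantCoeff A := by
  rw [← coeff_zero_eq_constantCoeff_apply, ← coeff_zero_eq_constantCoeff_apply, coeff_psV]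
  simp

theorem constantCoeff_x2 : constantCoeff x2 = 1 := by
  simp [x2, constantCoeff_sigZ, constantCoeff_psV]

theorem constantCoeff_Y3 : constantCoeff Y3 = 1 := by
  simp [Y3, constantCoeff_sigZ, constantCoeff_psV]

def x2inv : PowerSeries ℤ := x2.invOfUnit 1
def Y3inv : PowerSeries ℤ := Y3.invOfUnit 1

theorem x2_mul_inv : x2 * x2inv = 1 :=
  mul_invOfUnit _ _ (by rw [constantCoeff_x2]; rfl)

theorem Y3_mul_inv : Y3 * Y3inv = 1 :=
  mul_invOfUnit _ _ (by rw [constantCoeff_Y3]; rfl)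

/-- the Hauptmodul `Δ(q²)/Δ(q)` of `X₀(2)`. -/
def h2Z : PowerSeries ℤ := y2 * x2inv

/-- the Hauptmodul `(η(q³)/η(q))¹²` of `X₀(3)`. -/
def h3Z : PowerSeries ℤ := X3 * Y3inv

theorem psV_X {R : Type*} [CommRing R] {r : ℕ} (hr : r ≠ 0) :
    psV r (X : PowerSeries R) = X ^ r := by
  ext n
  rw [coeff_psV, coeff_X_pow]
  by_cases h : n = r
  · subst h
    simp [Nat.div_self (Nat.pos_of_ne_zero hr)]
  · rw [if_neg h]
    split_ifs with hd
    · obtain ⟨m, rfl⟩ := hd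
      rw [Nat.mul_div_cancel_left _ (Nat.pos_of_ne_zero hr), coeff_X, if_neg]
      rintro rfl
      exact h (mul_one r)
    · rfl

theorem delta_two : (X : PowerSeries ℤ) * dedekindEtaUnit = x2 ^ 2 * y2 := by
  rw [X_mul_dedekindEtaUnit]; exact delta_two_aux.1

theorem delta_two' : (X : PowerSeries ℤ) ^ 2 * psV 2 dedekindEtaUnit = x2 * y2 ^ 2 := by
  rw [← psV_X two_ne_zero, ← psV_mul two_ne_zero, X_mul_dedekindEtaUnit]; exact delta_two_aux.2

theorem delta_three :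
    (X : PowerSeries ℤ) * dedekindEtaUnit * (Y3 + 27 * X3) = Y3 ^ 3 * X3 := by
  rw [X_mul_dedekindEtaUnit]; exact delta_three_aux.1

theorem delta_three' :
    (X : PowerSeries ℤ) ^ 3 * psV 3 dedekindEtaUnit * (Y3 + 27 * X3) = Y3 * X3 ^ 3 := by
  rw [← psV_X three_ne_zero, ← psV_mul three_ne_zero, X_mul_dedekindEtaUnit]
  exact delta_three_aux.2

theorem psV_unit_mul_inv {r : ℕ} (hr : r ≠ 0) :
    psV r dedekindEtaUnit * psV r dedekindEtaUnitInv = 1 := by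
  rw [← psV_mul hr, dedekindEtaUnit_mul_inv, psV_one hr]

theorem psV_jNum {r : ℕ} (hr : r ≠ 0) :
    psV r jNum = psV r E4Z ^ 3 * psV r dedekindEtaUnitInv := by
  rw [jNum, psV_mul hr, psV_pow hr, eisenstein4_eq]

/-! ### the equations satisfied by the Hauptmoduln -/

theorem jNum_mul_h2Z : jNum * h2Z = X * (1 + 256 * h2Z) ^ 3 := by
  have hD := dedekindEtaUnit_mul_inv
  have hx := x2_mul_inv
  have hΔ := delta_two
  rw [jNum, eisenstein4_eq, E4Z_eq_two, h2Z]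
  grind

theorem psV_jNum_mul_h2Z : psV 2 jNum * h2Z ^ 2 = X ^ 2 * (1 + 16 * h2Z) ^ 3 := by
  have hD := psV_unit_mul_inv two_ne_zero
  have hx := x2_mul_inv
  have hΔ := delta_two'
  rw [psV_jNum two_ne_zero, psV_E4Z_two, h2Z]
  grind

theorem jNum_mul_h3Z : jNum * h3Z = X * ((1 + 27 * h3Z) * (1 + 243 * h3Z) ^ 3) := by
  have hD := dedekindEtaUnit_mul_inv
  have hx := Y3_mul_inv
  have hΔ := delta_three
  rw [jNum, eisenstein4_eq, E4Z_eq_three, h3Z]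
  grind

theorem psV_jNum_mul_h3Z :
    psV 3 jNum * h3Z ^ 3 = X ^ 3 * ((1 + 27 * h3Z) * (1 + 3 * h3Z) ^ 3) := by
  have hD := psV_unit_mul_inv three_ne_zero
  have hx := Y3_mul_inv
  have hΔ := delta_three'
  rw [psV_jNum three_ne_zero, psV_E4Z_three, h3Z]
  grind

/-! ### eta quotients, leading terms -/

theorem h2Z_mul_unit : h2Z * dedekindEtaUnit = X * psV 2 dedekindEtaUnit := by
  have hx := x2_mul_inv
  have h1 := delta_two
  have h2 := delta_two'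
  apply mul_left_cancel₀ (X_ne_zero (R := ℤ))
  rw [h2Z]
  grind

theorem h3Z_sq_mul_unit : h3Z ^ 2 * dedekindEtaUnit = X ^ 2 * psV 3 dedekindEtaUnit := by
  have hx := Y3_mul_inv
  have h1 := delta_three
  have h2 := delta_three'
  have hne : (X : PowerSeries ℤ) * (Y3 + 27 * X3) ≠ 0 := by
    apply mul_ne_zero X_ne_zero
    intro h
    have := congrArg constantCoeff h
    simp [constantCoeff_Y3, X3, constantCoeff_sigZ, constantCoeff_psV] at this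
  apply mul_left_cancel₀ hne
  rw [h3Z]
  grind

theorem exists_h2Z_eq : ∃ u : PowerSeries ℤ, h2Z = X * u ∧ constantCoeff u = 1 := by
  refine ⟨psV 2 dedekindEtaUnit * dedekindEtaUnitInv, ?_, ?_⟩
  · have h1 := h2Z_mul_unit
    have h2 := dedekindEtaUnit_mul_inv
    grind
  · rw [map_mul, constantCoeff_psV, constantCoeff_dedekindEtaUnit,
      constantCoeff_dedekindEtaUnitInv, one_mul]

theorem exists_h3Z_eq : ∃ u : PowerSeries ℤ, h3Z = X * u ∧ constantCoeff u = 1 := by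
  have hX3 : X3 = X * mk (fun n => coeff (n + 1) X3) := by
    ext n
    cases n with
    | zero =>
      simp [X3, constantCoeff_sigZ, constantCoeff_psV]
    | succ n => rw [mul_comm, coeff_succ_mul_X, coeff_mk]
  refine ⟨mk (fun n => coeff (n + 1) X3) * Y3inv, ?_, ?_⟩
  · rw [h3Z, ← mul_assoc, ← hX3]
  · have h1 : constantCoeff Y3inv = 1 := by
      have := congrArg constantCoeff Y3_mul_inv
      rwa [map_mul, constantCoeff_Y3, one_mul, map_one] at this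
    rw [map_mul, h1, mul_one, ← coeff_zero_eq_constantCoeff_apply, coeff_mk, X3, map_sub,
      coeff_psV]
    simp [sigZ]

theorem h2Z_ne_zero : h2Z ≠ 0 := by
  obtain ⟨u, hu, hu1⟩ := exists_h2Z_eq
  rw [hu]
  apply mul_ne_zero X_ne_zero
  rintro rfl
  simp at hu1

theorem h3Z_ne_zero : h3Z ≠ 0 := by
  obtain ⟨u, hu, hu1⟩ := exists_h3Z_eq
  rw [hu]
  apply mul_ne_zero X_ne_zero
  rintro rfl
  simp at hu1

/-! ### the Hauptmodul as a rational function of `j(q)`, `j(q^r)` -/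

/-- `q⁴ (j₂² + 195120 j₂ + 4095 j + 660960000)`. -/
def A2Z : PowerSeries ℤ :=
  psV 2 jNum ^ 2 + 195120 * X ^ 2 * psV 2 jNum + 4095 * X ^ 3 * jNum + 660960000 * X ^ 4

/-- `q³ (j j₂ - 720 j₂ - 720 j - 16250625)`. -/
def B2Z : PowerSeries ℤ :=
  jNum * psV 2 jNum - 720 * X * psV 2 jNum - 720 * X ^ 2 * jNum - 16250625 * X ^ 3

theorem A2Z_mul_h2Z : A2Z * h2Z = X * B2Z := by
  set a := jNum with ha
  set b := psV 2 jNum with hb
  set t := h2Z with ht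
  have hP : X * (1 + 256 * t) ^ 3 - a * t = 0 := by rw [jNum_mul_h2Z]; ring
  have hQ : X ^ 2 * (1 + 16 * t) ^ 3 - b * t ^ 2 = 0 := by rw [psV_jNum_mul_h2Z]; ring
  have key : t * (A2Z * t - X * B2Z) = 0 := by
    rw [A2Z, B2Z, ← ha, ← hb]
    linear_combination (-(((-1) * X ^ 1 * b ^ 1 + (720) * X ^ 3) * t ^ 0 + ((4095) * X ^ 3) * t ^ 1)) * hP - (((1) * b ^ 1 + (-720) * X ^ 2) * t ^ 0 + ((-16773120) * X ^ 2) * t ^ 1) * hQ
  rcases mul_eq_zero.1 key with h | h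
  · exact absurd h h2Z_ne_zero
  · exact sub_eq_zero.1 h

theorem constantCoeff_A2Z : constantCoeff A2Z = 1 := by
  simp [A2Z, constantCoeff_psV]

/-- `q⁹ A(j, j₃)`. -/
def A3Z : PowerSeries ℤ :=
  (1) * psV 3 jNum ^ 3 + (196830) * X ^ 2 * jNum ^ 1 * psV 3 jNum ^ 2 + (-103456080) * X ^ 3 * psV 3 jNum ^ 2 + (729) * X ^ 4 * jNum ^ 2 * psV 3 jNum ^ 1 + (18821147040) * X ^ 5 * jNum ^ 1 * psV 3 jNum ^ 1 + (276373831680000) * X ^ 6 * psV 3 jNum ^ 1 + (-524880) * X ^ 7 * jNum ^ 2 + (14229831680000) * X ^ 8 * jNum ^ 1 + (-3623878656000000000) * X ^ 9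

/-- `q⁸ B(j, j₃)`. -/
def B3Z : PowerSeries ℤ :=
  (-1) * jNum ^ 2 * psV 3 jNum ^ 2 + (1476) * X ^ 1 * jNum ^ 1 * psV 3 jNum ^ 2 + (-347760) * X ^ 2 * psV 3 jNum ^ 2 + (1476) * X ^ 3 * jNum ^ 2 * psV 3 jNum ^ 1 + (1461408480) * X ^ 4 * jNum ^ 1 * psV 3 jNum ^ 1 + (2707292160000) * X ^ 5 * psV 3 jNum ^ 1 + (-347760) * X ^ 6 * jNum ^ 2 + (2707292160000) * X ^ 7 * jNum ^ 1 + (-134217728000000000) * X ^ 8

theorem A3Z_mul_h3Z : A3Z * h3Z + X * B3Z = 0 := by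
  set a := jNum with ha
  set b := psV 3 jNum with hb
  set t := h3Z with ht
  have hP : X * ((1 + 27 * t) * (1 + 243 * t) ^ 3) - a * t = 0 := by rw [jNum_mul_h3Z]; ring
  have hQ : X ^ 3 * ((1 + 27 * t) * (1 + 3 * t) ^ 3) - b * t ^ 3 = 0 := by
    rw [psV_jNum_mul_h3Z]; ring
  have key : t ^ 2 * (A3Z * t + X * B3Z) = 0 := by
    rw [A3Z, B3Z, ← ha, ← hb]
    linear_combination (((1) * X ^ 2 * b ^ 2 + (19130400) * X ^ 5 * b ^ 1 + (90685440000) * X ^ 8) * t ^ 0 + ((1) * X ^ 1 * a ^ 1 * b ^ 2 + (-720) * X ^ 2 * b ^ 2 + (-1476) * X ^ 4 * a ^ 1 * b ^ 1 + (-386357040) * X ^ 5 * b ^ 1 + (347760) * X ^ 7 * a ^ 1 + (278691840000) * X ^ 8) * t ^ 1 + ((-729) * X ^ 4 * a ^ 1 * b ^ 1 + (524880) * X ^ 5 * b ^ 1 + (524880) * X ^ 7 * a ^ 1 + (282050560000) * X ^ 8) * t ^ 2) * hP + (((-1) * b ^ 2 + (-19130400) * X ^ 3 * b ^ 1 + (-90685440000) * X ^ 6) * t ^ 0 + ((19131876) * X ^ 2 * a ^ 1 * b ^ 1 + (-13387530960)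 * X ^ 3 * b ^ 1 + (90685092240) * X ^ 5 * a ^ 1 + (-65572208640000) * X ^ 6) * t ^ 1 + ((387420489) * X ^ 2 * a ^ 1 * b ^ 1 + (-278942752080) * X ^ 3 * b ^ 1 + (-278942752080) * X ^ 5 * a ^ 1 + (-149893231656960000) * X ^ 6) * t ^ 2) * hQ
  rcases mul_eq_zero.1 key with h | h
  · exact absurd (pow_eq_zero_iff (two_ne_zero)|>.1 h) h3Z_ne_zero
  · exact h

theorem constantCoeff_A3Z : constantCoeff A3Z = 1 := by
  simp [A3Z, constantCoeff_psV]

end Fermat.Agent.Lib.HauptmodulZ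

end
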