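import Fermat.Agent.Lib.HauptmodulZ.Sturm

/-!
# Hauptmodul library: the basic identities of level `2` and `3`

With `S = ∑ σ₃(n) qⁿ`, `V_r : q ↦ q^r`:

* level 2: `x₂ = 1 - 16 S + 256 V₂ S`, `y₂ = S - V₂ S`; then `Δ = x₂² y₂`, `V₂ Δ = x₂ y₂²`,
  `E₄ = x₂ + 256 y₂`, `V₂ E₄ = x₂ + 16 y₂`.
* level 3: `X₃ = S - V₃ S`, `Y₃ = 1 - 3 S + 243 V₃ S`; then `Δ (Y₃ + 27 X₃) = Y₃³ X₃`,
  `V₃ Δ (Y₃ + 27 X₃) = Y₃ X₃³`, `E₄ = Y₃ + 243 X₃`, `V₃ E₄ = Y₃ + 3 X₃`.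
-/

set_option autoImplicit false

noncomputable section

namespace Fermat.Agent.Lib.HauptmodulZ

open Fermat.Agent.S16 PowerSeries CongruenceSubgroup

def x2 : PowerSeries ℤ := 1 - 16 * sigZ 3 + 256 * psV 2 (sigZ 3)
def y2 : PowerSeries ℤ := sigZ 3 - psV 2 (sigZ 3)
def X3 : PowerSeries ℤ := sigZ 3 - psV 3 (sigZ 3)
def Y3 : PowerSeries ℤ := 1 - 3 * sigZ 3 + 243 * psV 3 (sigZ 3)

theorem psV_E4Z {r : ℕ} (hr : r ≠ 0) : psV r E4Z = 1 + 240 * psV r (sigZ 3) := by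
  have h240 : psV r (240 : PowerSeries ℤ) = 240 := by
    rw [← map_ofNat (C (R := ℤ)), psV_C hr]
  rw [E4Z, psV_add, psV_one hr, psV_mul hr, h240]

theorem E4Z_eq_two : E4Z = x2 + 256 * y2 := by
  rw [E4Z, x2, y2]; ring

theorem psV_E4Z_two : psV 2 E4Z = x2 + 16 * y2 := by
  rw [psV_E4Z two_ne_zero, x2, y2]; ring

theorem E4Z_eq_three : E4Z = Y3 + 243 * X3 := by
  rw [E4Z, X3, Y3]; ring

theorem psV_E4Z_three : psV 3 E4Z = Y3 + 3 * X3 := by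
  rw [psV_E4Z three_ne_zero, X3, Y3]; ring

/-! ### truncated computations -/

theorem trunc_two : (X : PowerSeries ℤ) ^ 6 ∣ DeltaZ - x2 ^ 2 * y2 := by
  obtain ⟨R3, h3⟩ := sigZ_three_trunc
  obtain ⟨R5, h5⟩ := sigZ_five_trunc
  obtain ⟨R2, h2⟩ := psV_two_sigZ_trunc
  have key : (X : PowerSeries ℤ) ^ 6 ∣ 1728 * (DeltaZ - x2 ^ 2 * y2) := by
    rw [mul_sub, SturmZ.DeltaZ_mul, ← E4Z_eq, ← E6Z_eq, E4Z, E6Z, x2, y2]
    set I : Ideal (PowerSeries ℤ) := Ideal.span {(X : PowerSeries ℤ) ^ 6} with hI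
    rw [← Ideal.mem_span_singleton, ← hI, ← Ideal.Quotient.eq_zero_iff_mem]
    have e3 : Ideal.Quotient.mk I (sigZ 3) = Ideal.Quotient.mk I
        (X + 9 * X ^ 2 + 28 * X ^ 3 + 73 * X ^ 4 + 126 * X ^ 5) := by
      rw [Ideal.Quotient.eq, hI, Ideal.mem_span_singleton]
      exact ⟨R3, by rw [h3]; ring⟩
    have e5 : Ideal.Quotient.mk I (sigZ 5) = Ideal.Quotient.mk I
        (X + 33 * X ^ 2 + 244 * X ^ 3 + 1057 * X ^ 4 + 3126 * X ^ 5) := by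
      rw [Ideal.Quotient.eq, hI, Ideal.mem_span_singleton]
      exact ⟨R5, by rw [h5]; ring⟩
    have e2 : Ideal.Quotient.mk I (psV 2 (sigZ 3)) = Ideal.Quotient.mk I (X ^ 2 + 9 * X ^ 4) := by
      rw [Ideal.Quotient.eq, hI, Ideal.mem_span_singleton]
      exact ⟨R2, by rw [h2]; ring⟩
    have e : Ideal.Quotient.mk I ((1 + 240 * sigZ 3) ^ 3 - (1 - 504 * sigZ 5) ^ 2 -
        1728 * ((1 - 16 * sigZ 3 + 256 * psV 2 (sigZ 3)) ^ 2 * (sigZ 3 - psV 2 (sigZ 3)))) =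
        Ideal.Quotient.mk I
        ((1 + 240 * (X + 9 * X ^ 2 + 28 * X ^ 3 + 73 * X ^ 4 + 126 * X ^ 5)) ^ 3 -
          (1 - 504 * (X + 33 * X ^ 2 + 244 * X ^ 3 + 1057 * X ^ 4 + 3126 * X ^ 5)) ^ 2 -
        1728 * ((1 - 16 * (X + 9 * X ^ 2 + 28 * X ^ 3 + 73 * X ^ 4 + 126 * X ^ 5)
          + 256 * (X ^ 2 + 9 * X ^ 4)) ^ 2 *
          ((X + 9 * X ^ 2 + 28 * X ^ 3 + 73 * X ^ 4 + 126 * X ^ 5) - (X ^ 2 + 9 * X ^ 4)))) := by
      simp only [map_sub, map_mul, map_pow, map_add, e3, e5, e2]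
    rw [e, Ideal.Quotient.eq_zero_iff_mem, hI, Ideal.mem_span_singleton]
    exact ⟨(-7910784) * X ^ 0 + (3985438464) * X ^ 1 + (132204996288) * X ^ 2 + (1089779947776) * X ^ 3 + (5289022759680) * X ^ 4 + (17765387845632) * X ^ 5 + (32808070656000) * X ^ 6 + (45917643792384) * X ^ 7 + (48611688136704) * X ^ 8 + (26768295493632) * X ^ 9, by ring⟩
  rw [X_pow_dvd_iff] at key ⊢
  intro m hm
  have := key m hm
  rw [coeff_ofNat_mul] at this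
  simpa using this

theorem trunc_three : (X : PowerSeries ℤ) ^ 6 ∣ DeltaZ * (Y3 + 27 * X3) - Y3 ^ 3 * X3 := by
  obtain ⟨R3, h3⟩ := sigZ_three_trunc
  obtain ⟨R5, h5⟩ := sigZ_five_trunc
  obtain ⟨R2, h2⟩ := psV_three_sigZ_trunc
  have key : (X : PowerSeries ℤ) ^ 6 ∣ 1728 * (DeltaZ * (Y3 + 27 * X3) - Y3 ^ 3 * X3) := by
    rw [mul_sub, ← mul_assoc, SturmZ.DeltaZ_mul, ← E4Z_eq, ← E6Z_eq, E4Z, E6Z, X3, Y3]
    set I : Ideal (PowerSeries ℤ) := Ideal.span {(X : PowerSeries ℤ) ^ 6} with hI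
    rw [← Ideal.mem_span_singleton, ← hI, ← Ideal.Quotient.eq_zero_iff_mem]
    have e3 : Ideal.Quotient.mk I (sigZ 3) = Ideal.Quotient.mk I
        (X + 9 * X ^ 2 + 28 * X ^ 3 + 73 * X ^ 4 + 126 * X ^ 5) := by
      rw [Ideal.Quotient.eq, hI, Ideal.mem_span_singleton]
      exact ⟨R3, by rw [h3]; ring⟩
    have e5 : Ideal.Quotient.mk I (sigZ 5) = Ideal.Quotient.mk I
        (X + 33 * X ^ 2 + 244 * X ^ 3 + 1057 * X ^ 4 + 3126 * X ^ 5) := by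
      rw [Ideal.Quotient.eq, hI, Ideal.mem_span_singleton]
      exact ⟨R5, by rw [h5]; ring⟩
    have e2 : Ideal.Quotient.mk I (psV 3 (sigZ 3)) = Ideal.Quotient.mk I (X ^ 3) := by
      rw [Ideal.Quotient.eq, hI, Ideal.mem_span_singleton]
      exact ⟨R2, by rw [h2]; ring⟩
    have e : Ideal.Quotient.mk I (((1 + 240 * sigZ 3) ^ 3 - (1 - 504 * sigZ 5) ^ 2) *
          (1 - 3 * sigZ 3 + 243 * psV 3 (sigZ 3) + 27 * (sigZ 3 - psV 3 (sigZ 3))) -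
        1728 * ((1 - 3 * sigZ 3 + 243 * psV 3 (sigZ 3)) ^ 3 * (sigZ 3 - psV 3 (sigZ 3)))) =
        Ideal.Quotient.mk I
        (((1 + 240 * (X + 9 * X ^ 2 + 28 * X ^ 3 + 73 * X ^ 4 + 126 * X ^ 5)) ^ 3 -
          (1 - 504 * (X + 33 * X ^ 2 + 244 * X ^ 3 + 1057 * X ^ 4 + 3126 * X ^ 5)) ^ 2) *
          (1 - 3 * (X + 9 * X ^ 2 + 28 * X ^ 3 + 73 * X ^ 4 + 126 * X ^ 5) + 243 * X ^ 3 +
            27 * ((X + 9 * X ^ 2 + 28 * X ^ 3 + 73 * X ^ 4 + 126 * X ^ 5) - X ^ 3)) -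
        1728 * ((1 - 3 * (X + 9 * X ^ 2 + 28 * X ^ 3 + 73 * X ^ 4 + 126 * X ^ 5)
          + 243 * X ^ 3) ^ 3 *
          ((X + 9 * X ^ 2 + 28 * X ^ 3 + 73 * X ^ 4 + 126 * X ^ 5) - X ^ 3))) := by
      simp only [map_sub, map_mul, map_pow, map_add, e3, e5, e2]
    rw [e, Ideal.Quotient.eq_zero_iff_mem, hI, Ideal.mem_span_singleton]
    exact ⟨(-7877952) * X ^ 0 + (3777667200) * X ^ 1 + (226331212608) * X ^ 2 + (5112698832000) * X ^ 3 + (63547900382592) * X ^ 4 + (504425275695936) * X ^ 5 + (2812893877346688) * X ^ 6 + (11676484653607296) * X ^ 7 + (36577136930424192) * X ^ 8 + (87355268261823744) * X ^ 9 + (163227637241884224) * X ^ 10 + (228510516809304576) * X ^ 11 + (248732126125604352) * X ^ 12 + (193820862577047552) * X ^ 13 + (83635029742150656) * X ^ 14, by ring⟩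
  rw [X_pow_dvd_iff] at key ⊢
  intro m hm
  have := key m hm
  rw [coeff_ofNat_mul] at this
  simpa using this

end Fermat.Agent.Lib.HauptmodulZ

end
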