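import Fermat.Agent.Lib.HauptmodulZ.Identities

/-!
# Hauptmodul library: proof of the identities by the Sturm bound
-/

set_option autoImplicit false

noncomputable section

namespace Fermat.Agent.Lib.HauptmodulZ

open Fermat.Agent.S16 PowerSeries CongruenceSubgroup

theorem isPair_zero (p : ℕ) [NeZero p] (k : ℤ) : IsPair p k 0 0 := by
  have h := IsPair.smul p (0 : ℂ) (IsPair.of_levelOne p (isLevelOne_zero k))
  simpa using h

theorem toC_ofNat_smul (a : ℕ) [a.AtLeastTwo] (A : PowerSeries ℤ) :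
    (ofNat(a) : ℂ) • toC A = toC (ofNat(a) * A) := by
  rw [map_mul, map_ofNat, smul_eq_C_mul, map_ofNat]

theorem delta_two_aux : DeltaZ = x2 ^ 2 * y2 ∧ psV 2 DeltaZ = x2 * y2 ^ 2 := by
  have hp : Nat.Prime 2 := Nat.prime_two
  set E : PowerSeries ℂ := toC E4Z with hE
  set V : PowerSeries ℂ := psV 2 E with hV
  have hVZ : V = toC (psV 2 E4Z) := by rw [hV, hE, map_psV]
  have P1 : IsPair 2 4 E V := IsPair.of_levelOne 2 isLevelOne_E4
  have P1s := IsPair.swap 2 P1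
  have P2 : IsPair 2 4 ((16 : ℂ) • V) E := by
    have h := IsPair.smul 2 (16 : ℂ) P1s
    rw [smul_smul] at h
    have e : (16 : ℂ) * (-((2 : ℕ) : ℂ)) ^ (-(4 : ℤ)) = 1 := by norm_num
    rwa [e, one_smul] at h
  have PX : IsPair 2 4 ((16 : ℂ) • V - E) (E - V) := IsPair.sub 2 P2 P1
  have PY := IsPair.sub 2 P1 P1s
  have PD : IsPair 2 12 (toC DeltaZ) (psV 2 (toC DeltaZ)) := IsPair.of_levelOne 2 isLevelOne_Delta
  have PXY := IsPair.mul 2 (IsPair.pow 2 2 PX) PY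
  have e12 : ((2 : ℕ) : ℤ) * 4 + 4 = ((12 : ℕ) : ℤ) := by norm_num
  rw [e12] at PXY
  have PD' : IsPair 2 ((12 : ℕ) : ℤ) (toC DeltaZ) (psV 2 (toC DeltaZ)) := PD
  have PF := IsPair.sub 2 (IsPair.smul 2 (54000 : ℂ) PD') PXY
  have hX : (16 : ℂ) • V - E = toC (15 * x2) := by
    rw [hVZ, toC_ofNat_smul, hE, ← map_sub, psV_E4Z_two, E4Z_eq_two]
    congr 1; ring
  have hY : E - V = toC (240 * y2) := by
    rw [hVZ, hE, ← map_sub, psV_E4Z_two, E4Z_eq_two]
    congr 1; ring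
  have hA : (54000 : ℂ) • toC DeltaZ - ((16 : ℂ) • V - E) ^ 2 * (E - V) =
      toC (54000 * (DeltaZ - x2 ^ 2 * y2)) := by
    rw [hX, hY, toC_ofNat_smul, ← map_pow, ← map_mul, ← map_sub]
    congr 1; ring
  have hA0 := eq_zero_of_isPair hp (by norm_num) PF (by
    intro n hn
    rw [hA, coeff_map, coeff_ofNat_mul]
    have := (X_pow_dvd_iff.1 trunc_two) n (by omega)
    rw [this]; simp)
  have h1 : DeltaZ = x2 ^ 2 * y2 := by
    rw [hA] at hA0
    have h0 : (54000 : PowerSeries ℤ) * (DeltaZ - x2 ^ 2 * y2) = 0 :=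
      toC_injective (by rw [hA0, map_zero])
    rcases mul_eq_zero.1 h0 with h | h
    · exfalso
      have := congrArg (coeff 0) h
      rw [← mul_one (54000 : PowerSeries ℤ), coeff_ofNat_mul] at this
      simp at this
    · exact sub_eq_zero.1 h
  refine ⟨h1, ?_⟩
  rw [hA0] at PF
  have hB := IsPair.unique 2 PF (isPair_zero 2 _)
  have e : (16 : ℂ) * (-((2 : ℕ) : ℂ)) ^ (-(4 : ℤ)) = 1 := by norm_num
  have hW : (16 : ℂ) • (V - (-((2 : ℕ) : ℂ)) ^ (-(4 : ℤ)) • E) = toC (15 * x2) := by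
    rw [smul_sub, smul_smul, e, one_smul, hX]
  have hB2 := congrArg (fun Z => (16 : ℂ) • Z) hB
  simp only [smul_sub, smul_zero] at hB2
  rw [← mul_smul_comm, hW, hY, ← map_psV, toC_ofNat_smul, toC_ofNat_smul, ← map_pow,
    ← map_mul, ← map_sub] at hB2
  have h0 : (16 : PowerSeries ℤ) * (54000 * psV 2 DeltaZ) - (240 * y2) ^ 2 * (15 * x2) = 0 :=
    toC_injective (by rw [hB2, map_zero])
  have h2 : (864000 : PowerSeries ℤ) * (psV 2 DeltaZ - x2 * y2 ^ 2) = 0 := by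
    linear_combination h0
  rcases mul_eq_zero.1 h2 with h | h
  · exfalso
    have := congrArg (coeff 0) h
    rw [← mul_one (864000 : PowerSeries ℤ), coeff_ofNat_mul] at this
    simp at this
  · exact sub_eq_zero.1 h

theorem delta_three_aux : DeltaZ * (Y3 + 27 * X3) = Y3 ^ 3 * X3 ∧
    psV 3 DeltaZ * (Y3 + 27 * X3) = Y3 * X3 ^ 3 := by
  have hp : Nat.Prime 3 := Nat.prime_three
  set E : PowerSeries ℂ := toC E4Z with hE
  set V : PowerSeries ℂ := psV 3 E with hV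
  have hVZ : V = toC (psV 3 E4Z) := by rw [hV, hE, map_psV]
  have P1 : IsPair 3 4 E V := IsPair.of_levelOne 3 isLevelOne_E4
  have P1s := IsPair.swap 3 P1
  have e : (81 : ℂ) * (-((3 : ℕ) : ℂ)) ^ (-(4 : ℤ)) = 1 := by norm_num
  have P2 : IsPair 3 4 ((81 : ℂ) • V) E := by
    have h := IsPair.smul 3 (81 : ℂ) P1s
    rw [smul_smul] at h
    rwa [e, one_smul] at h
  have PY : IsPair 3 4 ((81 : ℂ) • V - E) (E - V) := IsPair.sub 3 P2 P1
  have PX := IsPair.sub 3 P1 P1s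
  have PD : IsPair 3 12 (toC DeltaZ) (psV 3 (toC DeltaZ)) := IsPair.of_levelOne 3 isLevelOne_Delta
  have PL := IsPair.mul 3 (IsPair.smul 3 (1536000 : ℂ) PD) (IsPair.add 3 PY (IsPair.smul 3 (9 : ℂ) PX))
  have PR := IsPair.mul 3 (IsPair.pow 3 3 PY) PX
  have e16 : ((3 : ℕ) : ℤ) * 4 + 4 = ((16 : ℕ) : ℤ) := by norm_num
  have e16' : (12 : ℤ) + 4 = ((16 : ℕ) : ℤ) := by norm_num
  rw [e16] at PR
  rw [e16'] at PL
  have PF := IsPair.sub 3 PL PR
  have hY : (81 : ℂ) • V - E = toC (80 * Y3) := by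
    rw [hVZ, toC_ofNat_smul, hE, ← map_sub, psV_E4Z_three, E4Z_eq_three]
    congr 1; ring
  have hX : E - V = toC (240 * X3) := by
    rw [hVZ, hE, ← map_sub, psV_E4Z_three, E4Z_eq_three]
    congr 1; ring
  have hA : (1536000 : ℂ) • toC DeltaZ * ((81 : ℂ) • V - E + (9 : ℂ) • (E - V)) -
      ((81 : ℂ) • V - E) ^ 3 * (E - V) =
      toC (122880000 * (DeltaZ * (Y3 + 27 * X3) - Y3 ^ 3 * X3)) := by
    rw [hX, hY, toC_ofNat_smul, toC_ofNat_smul, ← map_pow, ← map_add, ← map_mul, ← map_mul,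
      ← map_sub]
    congr 1; ring
  have hA0 := eq_zero_of_isPair hp (by norm_num) PF (by
    intro n hn
    rw [hA, coeff_map, coeff_ofNat_mul]
    have := (X_pow_dvd_iff.1 trunc_three) n (by omega)
    rw [this]; simp)
  have h1 : DeltaZ * (Y3 + 27 * X3) = Y3 ^ 3 * X3 := by
    rw [hA] at hA0
    have h0 : (122880000 : PowerSeries ℤ) * (DeltaZ * (Y3 + 27 * X3) - Y3 ^ 3 * X3) = 0 :=
      toC_injective (by rw [hA0, map_zero])
    rcases mul_eq_zero.1 h0 with h | h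
    · exfalso
      have := congrArg (coeff 0) h
      rw [← mul_one (122880000 : PowerSeries ℤ), coeff_ofNat_mul] at this
      simp at this
    · exact sub_eq_zero.1 h
  refine ⟨h1, ?_⟩
  rw [hA0] at PF
  have hB := IsPair.unique 3 PF (isPair_zero 3 _)
  set W : PowerSeries ℂ := V - (-((3 : ℕ) : ℂ)) ^ (-(4 : ℤ)) • E with hWdef
  have hW : (81 : ℂ) • W = toC (80 * Y3) := by
    rw [hWdef, smul_sub, smul_smul, e, one_smul, hY]
  have hB2 : (1536000 : ℂ) • psV 3 (toC DeltaZ) * ((81 : ℂ) • (E - V) + (9 : ℂ) • ((81 : ℂ) • W)) -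
      (E - V) ^ 3 * ((81 : ℂ) • W) = 0 := by
    have := congrArg (fun Z => (81 : ℂ) • Z) hB
    simp only [smul_zero] at this
    rw [← this]
    simp only [smul_eq_C_mul]
    ring
  rw [hW, hX, ← map_psV, toC_ofNat_smul, toC_ofNat_smul, toC_ofNat_smul, ← map_pow, ← map_add,
    ← map_mul, ← map_mul, ← map_sub] at hB2
  have h0 := toC_injective (hB2.trans (map_zero toC).symm)
  have h2 : (1105920000 : PowerSeries ℤ) * (psV 3 DeltaZ * (Y3 + 27 * X3) - Y3 * X3 ^ 3) = 0 := by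
    linear_combination h0
  rcases mul_eq_zero.1 h2 with h | h
  · exfalso
    have := congrArg (coeff 0) h
    rw [← mul_one (1105920000 : PowerSeries ℤ), coeff_ofNat_mul] at this
    simp at this
  · exact sub_eq_zero.1 h

end Fermat.Agent.Lib.HauptmodulZ

end
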