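import Fermat.Agent.Lib.HauptmodulZ.Modular
import Fermat.Agent.Lib.JExpansion

/-!
# Hauptmodul library: the identities in terms of the formal series of the Prelude

`eisenstein4`, `dedekindEtaUnit` are the integral power series of
`Fermat.Prelude.Def_ModularCurve_X0`.
-/

set_option autoImplicit false

noncomputable section

namespace Fermat.Agent.Lib.HauptmodulZ

open Fermat.Agent.S16 PowerSeries ModularCurve

theorem eisenstein4_eq : eisenstein4 = E4Z := by
  ext n
  rw [eisenstein4, coeff_mk, E4Z_eq, SturmZ.coeff_E4Z]
  split_ifs with h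
  · rfl
  · rw [ArithmeticFunction.sigma_apply]
    push_cast
    rfl

theorem X_mul_dedekindEtaUnit : (X : PowerSeries ℤ) * dedekindEtaUnit = DeltaZ := by
  apply toC_injective
  rw [← SturmZ.qExpansion_discriminant]
  ext m
  have key : ∀ τ : UpperHalfPlane, HasSum
      (fun m ↦ coeff m (toC (X * dedekindEtaUnit)) • Function.Periodic.qParam 1 (τ : ℂ) ^ m)
      (CuspForm.discriminant τ) := by
    intro τ
    have h := JExpansion.ev_discriminant τ
    unfold JExpansion.Ev at h
    simpa [dedekindEtaUnit, smul_eq_mul] using h
  have := ModularFormClass.qExpansion_coeff_unique one_pos one_mem_strictPeriods_SL key m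
  rw [this, CuspForm.coe_discriminant]

end Fermat.Agent.Lib.HauptmodulZ

end
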