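import Fermat.Agent.S16.LevelOnePair
import Fermat.Agent.S16.LevelOneCalcProof
import Fermat.Agent.S16.SmallP
import Fermat.Agent.S16.Formal

/-!
# Hauptmodul library: Sturm bound for Fricke pairs of level `2` and `3`, truncations
-/

set_option autoImplicit false

noncomputable section

namespace Fermat.Agent.Lib.HauptmodulZ

open Fermat.Agent.S16 PowerSeries CongruenceSubgroup

/-- Sturm bound for the first member of a Fricke pair of level `p ≤ 3`. -/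
theorem eq_zero_of_isPair {p : ℕ} [NeZero p] (hp : p.Prime) (hp3 : p ≤ 3) {k : ℕ}
    {A B : PowerSeries ℂ} (h : IsPair p (k : ℤ) A B) (hA : ∀ n ≤ k / 3, coeff n A = 0) :
    A = 0 := by
  obtain ⟨F, G, -, rfl, -⟩ := h
  have hF : F = 0 := by
    apply ModularForm.sturm_bound_Gamma0 p
    intro n hn
    apply hA
    have hidx := index_Gamma0_le_four hp hp3
    have h1 : ((k : ℤ) * ((Gamma0 p).index : ℤ)).toNat = k * (Gamma0 p).index := by
      rw [← Nat.cast_mul, Int.toNat_natCast]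
    rw [h1] at hn
    have h2 : k * (Gamma0 p).index / 12 ≤ k * 4 / 12 :=
      Nat.div_le_div_right (Nat.mul_le_mul_left k hidx)
    omega
  rw [hF]
  simp [UpperHalfPlane.qExpansion_zero]

theorem coeff_ofNat_mul (a : ℕ) [a.AtLeastTwo] (f : PowerSeries ℤ) (n : ℕ) :
    coeff n ((ofNat(a) : PowerSeries ℤ) * f) = (ofNat(a) : ℤ) * coeff n f := by
  rw [← map_ofNat (C (R := ℤ)), coeff_C_mul]

/-- `σ₃` truncated. -/
theorem sigZ_three_trunc : ∃ R : PowerSeries ℤ, sigZ 3 =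
    X + 9 * X ^ 2 + 28 * X ^ 3 + 73 * X ^ 4 + 126 * X ^ 5 + X ^ 6 * R := by
  have h : (X : PowerSeries ℤ) ^ 6 ∣ sigZ 3 -
      (X + 9 * X ^ 2 + 28 * X ^ 3 + 73 * X ^ 4 + 126 * X ^ 5) := by
    rw [X_pow_dvd_iff]
    intro m hm
    interval_cases m <;>
      simp [sigZ, coeff_ofNat_mul, coeff_X_pow, coeff_X, ArithmeticFunction.sigma_apply] <;> decide
  obtain ⟨R, hR⟩ := h
  exact ⟨R, by rw [← hR]; ring⟩

/-- `σ₅` truncated. -/
theorem sigZ_five_trunc : ∃ R : PowerSeries ℤ, sigZ 5 =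
    X + 33 * X ^ 2 + 244 * X ^ 3 + 1057 * X ^ 4 + 3126 * X ^ 5 + X ^ 6 * R := by
  have h : (X : PowerSeries ℤ) ^ 6 ∣ sigZ 5 -
      (X + 33 * X ^ 2 + 244 * X ^ 3 + 1057 * X ^ 4 + 3126 * X ^ 5) := by
    rw [X_pow_dvd_iff]
    intro m hm
    interval_cases m <;>
      simp [sigZ, coeff_ofNat_mul, coeff_X_pow, coeff_X, ArithmeticFunction.sigma_apply] <;> decide
  obtain ⟨R, hR⟩ := h
  exact ⟨R, by rw [← hR]; ring⟩

theorem psV_two_sigZ_trunc : ∃ R : PowerSeries ℤ, psV 2 (sigZ 3) =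
    X ^ 2 + 9 * X ^ 4 + X ^ 6 * R := by
  have h : (X : PowerSeries ℤ) ^ 6 ∣ psV 2 (sigZ 3) - (X ^ 2 + 9 * X ^ 4) := by
    rw [X_pow_dvd_iff]
    intro m hm
    rw [map_sub, coeff_psV]
    interval_cases m <;>
      simp [sigZ, coeff_ofNat_mul, coeff_X_pow, ArithmeticFunction.sigma_apply] <;> decide
  obtain ⟨R, hR⟩ := h
  exact ⟨R, by rw [← hR]; ring⟩

theorem psV_three_sigZ_trunc : ∃ R : PowerSeries ℤ, psV 3 (sigZ 3) = X ^ 3 + X ^ 6 * R := by
  have h : (X : PowerSeries ℤ) ^ 6 ∣ psV 3 (sigZ 3) - X ^ 3 := by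
    rw [X_pow_dvd_iff]
    intro m hm
    rw [map_sub, coeff_psV]
    interval_cases m <;>
      simp [sigZ, coeff_X_pow, ArithmeticFunction.sigma_apply]
  obtain ⟨R, hR⟩ := h
  exact ⟨R, by rw [← hR]; ring⟩

end Fermat.Agent.Lib.HauptmodulZ

end
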